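import Mathlib

set_option autoImplicit false

namespace Fermat.Agent.S05

open WeierstrassCurve WeierstrassCurve.Affine

variable {K : Type*} [Field K]

/-- x-coordinate of a point (junk value `0` at the origin). -/
def xc {W : Affine K} : W.Point → K
  | .zero => 0
  | .some x _ _ => x

/-- `2y + a₁x + a₃` of a point (junk value `0` at the origin). -/
def yc {W : Affine K} : W.Point → K
  | .zero => 0
  | .some x y _ => 2 * y + W.a₁ * x + W.a₃

/-- numerator of `x(P+Q) x(P-Q)` -/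
def F0 (W : Affine K) (s t : K) : K :=
  s ^ 2 * t ^ 2 - W.b₄ * (s * t) - W.b₆ * (s + t) - W.b₈

/-- numerator of `x(P+Q) + x(P-Q)` -/
def F1 (W : Affine K) (s t : K) : K :=
  2 * (s + t) * (s * t) + W.b₂ * (s * t) + W.b₄ * (s + t) + W.b₆

/-- the 2-division polynomial squared -/
def D2 (W : Affine K) (s : K) : K :=
  4 * s ^ 3 + W.b₂ * s ^ 2 + 2 * W.b₄ * s + W.b₆

variable {W : Affine K}

@[simp] lemma xc_zero : xc (0 : W.Point) = 0 := rfl
@[simp] lemma yc_zero : yc (0 : W.Point) = 0 := rfl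
@[simp] lemma xc_some {x y : K} (h : W.Nonsingular x y) : xc (Point.some x y h) = x := rfl
@[simp] lemma yc_some {x y : K} (h : W.Nonsingular x y) :
    yc (Point.some x y h) = 2 * y + W.a₁ * x + W.a₃ := rfl

lemma xc_neg (P : W.Point) : xc (-P) = xc P := by
  cases P <;> rfl

lemma yc_neg (P : W.Point) : yc (-P) = - yc P := by
  rcases P with _ | ⟨x, y, h⟩
  · simp [← Point.zero_def]
  · simp only [Point.neg_some, yc_some, negY]; ring

lemma yc_sq (P : W.Point) (hP : P ≠ 0) : yc P ^ 2 = D2 W (xc P) := by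
  rcases P with _ | ⟨x, y, h⟩
  · exact absurd rfl hP
  · have h1 := (equation_iff ..).mp h.1
    simp only [yc_some, xc_some, D2, b₂, b₄, b₆]
    linear_combination 4 * h1

variable [DecidableEq K]

lemma eq_or_eq_neg_of_xc_eq {P Q : W.Point} (hP : P ≠ 0) (hQ : Q ≠ 0) (h : xc P = xc Q) :
    P = Q ∨ P = -Q := by
  rcases P with _ | ⟨x₁, y₁, h₁⟩
  · exact absurd rfl hP
  rcases Q with _ | ⟨x₂, y₂, h₂⟩
  · exact absurd rfl hQ
  exact Point.X_eq_iff.mp h

lemma xc_ne_of_ne {P Q : W.Point} (hP : P ≠ 0) (hQ : Q ≠ 0) (h1 : P ≠ Q) (h2 : P ≠ -Q) :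
    xc P ≠ xc Q := fun h => by
  rcases eq_or_eq_neg_of_xc_eq hP hQ h with h | h
  · exact h1 h
  · exact h2 h

/-- `4 x(P+Q) (x₁-x₂)² = (Y₁-Y₂)² - (b₂ + 4(x₁+x₂)) (x₁-x₂)²`. -/
lemma four_xc_add {P Q : W.Point} (hP : P ≠ 0) (hQ : Q ≠ 0) (hx : xc P ≠ xc Q) :
    4 * xc (P + Q) * (xc P - xc Q) ^ 2 =
      (yc P - yc Q) ^ 2 - (W.b₂ + 4 * (xc P + xc Q)) * (xc P - xc Q) ^ 2 := by
  rcases P with _ | ⟨x₁, y₁, h₁⟩
  · exact absurd rfl hP
  rcases Q with _ | ⟨x₂, y₂, h₂⟩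
  · exact absurd rfl hQ
  simp only [xc_some] at hx
  rw [Point.add_of_X_ne hx]
  simp only [xc_some, yc_some, addX, slope_of_X_ne hx, b₂]
  have : x₁ - x₂ ≠ 0 := sub_ne_zero.mpr hx
  field_simp
  ring

lemma xc_add_add_xc_sub {P Q : W.Point} (hP : P ≠ 0) (hQ : Q ≠ 0) (hx : xc P ≠ xc Q) :
    (xc (P + Q) + xc (P - Q)) * (xc P - xc Q) ^ 2 = F1 W (xc P) (xc Q) := by
  rcases P with _ | ⟨x₁, y₁, h₁⟩
  · exact absurd rfl hP
  rcases Q with _ | ⟨x₂, y₂, h₂⟩
  · exact absurd rfl hQ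
  simp only [xc_some] at hx
  rw [sub_eq_add_neg, Point.neg_some, Point.add_of_X_ne hx, Point.add_of_X_ne hx]
  have e1 := (equation_iff ..).mp h₁.1
  have e2 := (equation_iff ..).mp h₂.1
  simp only [xc_some, addX, slope_of_X_ne hx, F1, b₂, b₄, b₆, negY]
  have : x₁ - x₂ ≠ 0 := sub_ne_zero.mpr hx
  field_simp
  linear_combination 2 * e1 + 2 * e2

lemma xc_add_mul_xc_sub {P Q : W.Point} (hP : P ≠ 0) (hQ : Q ≠ 0) (hx : xc P ≠ xc Q) :
    (xc (P + Q) * xc (P - Q)) * (xc P - xc Q) ^ 2 = F0 W (xc P) (xc Q) := by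
  rcases P with _ | ⟨x₁, y₁, h₁⟩
  · exact absurd rfl hP
  rcases Q with _ | ⟨x₂, y₂, h₂⟩
  · exact absurd rfl hQ
  simp only [xc_some] at hx
  rw [sub_eq_add_neg, Point.neg_some, Point.add_of_X_ne hx, Point.add_of_X_ne hx]
  have e1 := (equation_iff ..).mp h₁.1
  have e2 := (equation_iff ..).mp h₂.1
  simp only [xc_some, addX, slope_of_X_ne hx, F0, b₂, b₄, b₆, b₈, negY]
  have : x₁ - x₂ ≠ 0 := sub_ne_zero.mpr hx
  field_simp
  grind

lemma yc_eq_zero_of_add_self {P : W.Point} (h2 : P + P = 0) : yc P = 0 := by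
  rcases P with _ | ⟨x, y, h⟩
  · rfl
  · by_contra hne
    have hy : y ≠ W.negY x y := by
      intro hy
      apply hne
      simp only [yc_some]
      simp only [negY] at hy
      linear_combination hy
    rw [Point.add_self_of_Y_ne hy] at h2
    exact Point.some_ne_zero _ h2

lemma add_self_eq_zero_of_yc {P : W.Point} (h : yc P = 0) : P + P = 0 := by
  rcases P with _ | ⟨x, y, hn⟩
  · rfl
  · apply Point.add_self_of_Y_eq
    simp only [yc_some] at h
    simp only [negY]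
    linear_combination h

lemma xc_add_self {P : W.Point} (h2 : P + P ≠ 0) :
    xc (P + P) * D2 W (xc P) = F0 W (xc P) (xc P) := by
  rcases P with _ | ⟨x, y, h⟩
  · exact absurd rfl h2
  · have hy : y ≠ W.negY x y := by
      intro hy
      exact h2 (Point.add_self_of_Y_eq hy)
    rw [Point.add_self_of_Y_ne hy]
    have e1 := (equation_iff ..).mp h.1
    have hy' : y - W.negY x y ≠ 0 := sub_ne_zero.mpr hy
    simp only [xc_some, addX, slope_of_Y_ne rfl hy]
    generalize hd : y - W.negY x y = d at hy'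
    have hd' : d = 2 * y + W.a₁ * x + W.a₃ := by rw [← hd, negY]; ring
    have hD : D2 W x = d ^ 2 := by
      rw [hd']; simp only [D2, b₂, b₄, b₆]; linear_combination -4 * e1
    rw [hD]
    field_simp
    simp only [F0, b₄, b₆, b₈]
    rw [hd']
    grind

end Fermat.Agent.S05
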