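/-
S05: unpacking of the inertia subgroup of a valuation subring, and valuations of integers.
-/
import Mathlib
import Fermat.Prelude.Def_FLTPrelim_Ramification

set_option autoImplicit false

namespace Fermat.Agent.S05

open scoped Pointwise

section inertia

variable {K : Type*} [Field K] [Algebra ℚ K] (A : ValuationSubring K) (σ : K ≃ₐ[ℚ] K)

theorem mem_iff_of_mem_decomposition (hσ : σ ∈ A.decompositionSubgroup ℚ) (x : K) :
    σ x ∈ A ↔ x ∈ A := by
  have h : σ • A = A := hσ
  have h1 : σ • x ∈ σ • A ↔ x ∈ A := ValuationSubring.smul_mem_pointwise_smul_iff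
  rw [h] at h1
  exact h1

theorem mem_decomposition_of_mem_inertia (hσ : σ ∈ A.inertiaSubgroupIn ℚ) :
    σ ∈ A.decompositionSubgroup ℚ := by
  obtain ⟨τ, _, rfl⟩ := Subgroup.mem_map.mp hσ
  exact τ.2

theorem inertia_spec (hσ : σ ∈ A.inertiaSubgroupIn ℚ) :
    (∀ x : K, A.valuation (σ x) ≤ 1 ↔ A.valuation x ≤ 1) ∧
      (∀ x : K, A.valuation x ≤ 1 → A.valuation (σ x - x) < 1) := by
  constructor
  · intro x
    rw [A.valuation_le_one_iff, A.valuation_le_one_iff]
    exact mem_iff_of_mem_decomposition A σ (mem_decomposition_of_mem_inertia A σ hσ) x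
  · intro x hx
    obtain ⟨τ, hτ, rfl⟩ := Subgroup.mem_map.mp hσ
    rw [A.valuation_le_one_iff] at hx
    have h1 : MulSemiringAction.toRingAut (A.decompositionSubgroup ℚ)
        (IsLocalRing.ResidueField A) τ = 1 := hτ
    have h2 : τ • IsLocalRing.residue A ⟨x, hx⟩ = IsLocalRing.residue A ⟨x, hx⟩ := by
      have := congrArg (fun f => f (IsLocalRing.residue A ⟨x, hx⟩)) h1
      exact this
    rw [← IsLocalRing.ResidueField.residue_smul] at h2
    have h3 : (τ • (⟨x, hx⟩ : A)) - ⟨x, hx⟩ ∈ IsLocalRing.maximalIdeal A := by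
      rw [← IsLocalRing.residue_eq_zero_iff, map_sub, h2, sub_self]
    rw [A.valuation_lt_one_iff] at h3
    exact h3

/-- An element of the decomposition group preserves the valuation (finite orbit argument). -/
theorem val_sigma_of_mem_decomposition [Algebra.IsAlgebraic ℚ K]
    (hσ : σ ∈ A.decompositionSubgroup ℚ) (x : K) : A.valuation (σ x) = A.valuation x := by
  classical
  by_cases hx0 : x = 0
  · simp [hx0]
  -- `σ` preserves `v · < 1`
  have hle : ∀ y : K, A.valuation (σ y) ≤ 1 ↔ A.valuation y ≤ 1 := by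
    intro y
    rw [A.valuation_le_one_iff, A.valuation_le_one_iff]
    exact mem_iff_of_mem_decomposition A σ hσ y
  have hlt : ∀ y : K, A.valuation y < 1 → A.valuation (σ y) < 1 := by
    intro y hy
    by_cases hy0 : y = 0
    · simp [hy0]
    by_contra hcon
    rw [not_lt] at hcon
    have h1 : A.valuation (σ y⁻¹) ≤ 1 := by
      rw [map_inv₀, map_inv₀]
      exact inv_le_one_of_one_le₀ hcon
    have h2 := (hle y⁻¹).mp h1
    rw [map_inv₀] at h2
    have h3 : 1 ≤ A.valuation y := by
      have hne : A.valuation y ≠ 0 := (Valuation.ne_zero_iff _).mpr hy0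
      exact (inv_le_one₀ (zero_lt_iff.mpr hne)).mp h2
    exact absurd hy (not_lt.mpr h3)
  have hlt_pow : ∀ (i : ℕ) (y : K), A.valuation y < 1 → A.valuation ((σ ^ i) y) < 1 := by
    intro i
    induction i with
    | zero => intro y hy; simpa using hy
    | succ i ih =>
      intro y hy
      rw [pow_succ']
      exact hlt _ (ih y hy)
  -- finite orbit
  obtain ⟨r, hr0, hr⟩ : ∃ r : ℕ, 0 < r ∧ (σ ^ r) x = x := by
    have hfin : ((minpoly ℚ x).rootSet K).Finite := Polynomial.rootSet_finite _ _
    have hmem : ∀ i : ℕ, (σ ^ i) x ∈ (minpoly ℚ x).rootSet K := by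
      intro i
      rw [Polynomial.mem_rootSet]
      refine ⟨minpoly.ne_zero (Algebra.IsIntegral.isIntegral x), ?_⟩
      rw [Polynomial.aeval_algHom_apply, minpoly.aeval, map_zero]
    obtain ⟨i, -, j, -, hij, heq⟩ := Set.infinite_univ.exists_ne_map_eq_of_mapsTo
      (f := fun i : ℕ => (σ ^ i) x) (fun i _ => hmem i) hfin
    wlog hlt' : i < j generalizing i j
    · exact this j i hij.symm heq.symm (lt_of_le_of_ne (not_lt.mp hlt') hij.symm)
    refine ⟨j - i, Nat.sub_pos_of_lt hlt', ?_⟩
    have h1 : (σ ^ i) ((σ ^ (j - i)) x) = (σ ^ i) x := by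
      rw [← AlgEquiv.mul_apply, ← pow_add, Nat.add_sub_cancel' hlt'.le]
      exact heq.symm
    exact (σ ^ i).injective h1
  -- telescoping product
  have htel : ∀ (z : K), z ≠ 0 → ∀ n : ℕ,
      ∏ i ∈ Finset.range n, (σ ^ i) (σ z / z) = (σ ^ n) z / z := by
    intro z hz n
    induction n with
    | zero => simp [hz]
    | succ n ih =>
      rw [Finset.prod_range_succ, ih, map_div₀, pow_succ, AlgEquiv.mul_apply]
      have h1 : (σ ^ n) z ≠ 0 := (map_ne_zero (σ ^ n)).mpr hz
      field_simp
  have key : ∀ z : K, z ≠ 0 → (σ ^ r) z = z → ¬ A.valuation (σ z / z) < 1 := by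
    intro z hz hrz hcon
    have h1 := htel z hz r
    rw [hrz, div_self hz] at h1
    have h2 : A.valuation (∏ i ∈ Finset.range r, (σ ^ i) (σ z / z)) < 1 := by
      rw [map_prod]
      have hne : (Finset.range r).Nonempty := Finset.nonempty_range_iff.mpr hr0.ne'
      calc ∏ i ∈ Finset.range r, A.valuation ((σ ^ i) (σ z / z))
          < ∏ _i ∈ Finset.range r, (1 : A.ValueGroup) := by
            apply Finset.prod_lt_prod_of_nonempty
            · intro i _
              rw [zero_lt_iff, Valuation.ne_zero_iff]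
              have : σ z / z ≠ 0 := div_ne_zero ((map_ne_zero σ).mpr hz) hz
              exact (map_ne_zero (σ ^ i)).mpr this
            · intro i _
              exact hlt_pow i _ hcon
            · exact hne
        _ = 1 := by simp
    rw [h1, map_one] at h2
    exact lt_irrefl _ h2
  have hσx0 : σ x ≠ 0 := by simpa using hx0
  have hvx : A.valuation x ≠ 0 := (Valuation.ne_zero_iff _).mpr hx0
  have hvσx : A.valuation (σ x) ≠ 0 := (Valuation.ne_zero_iff _).mpr hσx0
  apply le_antisymm
  · -- apply `key` to `x⁻¹`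
    have h1 := key x⁻¹ (inv_ne_zero hx0) (by rw [map_inv₀, hr])
    rw [not_lt, map_inv₀, map_div₀, map_inv₀, map_inv₀, inv_div_inv] at h1
    exact (one_le_div₀ (zero_lt_iff.mpr hvσx)).mp h1
  · have h1 := key x hx0 hr
    rw [not_lt, map_div₀] at h1
    exact (one_le_div₀ (zero_lt_iff.mpr hvx)).mp h1

theorem val_sigma [Algebra.IsAlgebraic ℚ K] (hσ : σ ∈ A.inertiaSubgroupIn ℚ) (x : K) :
    A.valuation (σ x) = A.valuation x :=
  val_sigma_of_mem_decomposition A σ (mem_decomposition_of_mem_inertia A σ hσ) x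

/-- If `x` has the valuation of a `σ`-fixed element `c`, then `σ x - x` is strictly smaller. -/
theorem val_sigma_sub_lt (hσ : σ ∈ A.inertiaSubgroupIn ℚ) {x c : K} (hc : σ c = c) (hc0 : c ≠ 0)
    (hxc : A.valuation x = A.valuation c) : A.valuation (σ x - x) < A.valuation x := by
  have hvc : A.valuation c ≠ 0 := (Valuation.ne_zero_iff _).mpr hc0
  have h1 : A.valuation (x / c) ≤ 1 := by
    rw [map_div₀, hxc, div_self hvc]
  have h2 := (inertia_spec A σ hσ).2 _ h1
  have h3 : σ (x / c) - x / c = (σ x - x) / c := by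
    rw [map_div₀, hc]; ring
  rw [h3, map_div₀, div_lt_one₀ (zero_lt_iff.mpr hvc)] at h2
  rwa [hxc]

end inertia

section integers

variable {K : Type*} [Field K] (A : ValuationSubring K) {q : ℕ}

theorem val_int (hq : q.Prime) (hA : A.LiesOverPrime q) (n : ℤ) :
    A.valuation (n : K) ≤ 1 ∧ (A.valuation (n : K) < 1 ↔ (q : ℤ) ∣ n) := by
  have hint : ∀ m : ℤ, A.valuation (m : K) ≤ 1 := fun m =>
    (A.valuation_le_one_iff _).mpr (intCast_mem A m)
  have hq1 : A.valuation (q : K) < 1 := by
    have : (q : K) ∈ A.nonunits := hA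
    rwa [ValuationSubring.mem_nonunits_iff] at this
  refine ⟨hint n, ?_, ?_⟩
  · intro hn
    by_contra hdvd
    have hcop : IsCoprime (q : ℤ) n :=
      (Prime.coprime_iff_not_dvd (Nat.prime_iff_prime_int.mp hq)).mpr hdvd
    obtain ⟨u, w, huw⟩ := hcop
    have h1 : (u : K) * (q : K) + (w : K) * (n : K) = 1 := by exact_mod_cast congrArg (Int.cast : ℤ → K) huw
    have h2 : A.valuation ((u : K) * (q : K) + (w : K) * (n : K)) < 1 := by
      apply Valuation.map_add_lt
      · rw [map_mul]
        exact lt_of_le_of_lt (mul_le_of_le_one_left' (hint u)) hq1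
      · rw [map_mul]
        exact lt_of_le_of_lt (mul_le_of_le_one_left' (hint w)) hn
    rw [h1, map_one] at h2
    exact lt_irrefl _ h2
  · rintro ⟨m, rfl⟩
    push_cast
    rw [map_mul]
    exact lt_of_le_of_lt (mul_le_of_le_one_right' (hint m)) hq1

end integers

end Fermat.Agent.S05
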