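import Fermat.Agent.S05.Core
import Fermat.Agent.S05.Inertia

set_option autoImplicit false
set_option linter.unusedSimpArgs false

namespace Fermat.Agent.S05

open WeierstrassCurve WeierstrassCurve.Affine

section

variable {K : Type*} [Field K] {W : Affine K}
variable {Γ₀ : Type*} [LinearOrderedCommGroupWithZero Γ₀] (v : Valuation K Γ₀)

lemma v_yc_le_one (hb₂ : v W.b₂ ≤ 1) (hb₄ : v W.b₄ ≤ 1) (hb₆ : v W.b₆ ≤ 1) {P : W.Point}
    (hx : v (xc P) ≤ 1) : v (yc P) ≤ 1 := by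
  by_cases hP0 : P = 0
  · subst hP0; simp
  have h4 : v (4 : K) ≤ 1 := by simpa using v_natCast_le_one v 4
  have h2 : v (2 : K) ≤ 1 := by simpa using v_natCast_le_one v 2
  have h1 : v (yc P ^ 2) ≤ 1 := by
    rw [yc_sq P hP0, D2]
    refine v.map_add_le (v.map_add_le (v.map_add_le ?_ ?_) ?_) hb₆
    · rw [map_mul, map_pow]; exact mul_le_one' h4 (pow_le_one₀ zero_le hx)
    · rw [map_mul, map_pow]; exact mul_le_one' hb₂ (pow_le_one₀ zero_le hx)
    · rw [map_mul, map_mul]; exact mul_le_one' (mul_le_one' h2 hb₄) hx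
  by_contra h
  rw [not_le] at h
  rw [map_pow] at h1
  exact absurd (one_lt_pow₀ h (by norm_num)) (not_lt.mpr h1)

end

variable {K : Type*} [Field K] [DecidableEq K] [Algebra ℚ K]

lemma xc_map (W' : WeierstrassCurve ℚ) (σ : K ≃ₐ[ℚ] K) (P : (W'⁄K).Point) :
    xc (Point.map (W' := W') σ.toAlgHom P) = σ (xc P) := by
  rcases P with _ | ⟨x, y, h⟩
  · exact (map_zero σ).symm
  · rfl

lemma yc_map (W' : WeierstrassCurve ℚ) (σ : K ≃ₐ[ℚ] K) (P : (W'⁄K).Point) :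
    yc (Point.map (W' := W') σ.toAlgHom P) = σ (yc P) := by
  rcases P with _ | ⟨x, y, h⟩
  · exact (map_zero σ).symm
  · rw [Point.map_some]
    simp only [yc_some, map_add, map_mul, map_ofNat]
    have h1 : σ (W'⁄K).a₁ = (W'⁄K).a₁ := σ.commutes W'.a₁
    have h3 : σ (W'⁄K).a₃ = (W'⁄K).a₃ := σ.commutes W'.a₃
    rw [h1, h3]
    rfl

lemma map_ne_zero' (W' : WeierstrassCurve ℚ) (σ : K ≃ₐ[ℚ] K) (P : (W'⁄K).Point) (hP : P ≠ 0) :
    Point.map (W' := W') σ.toAlgHom P ≠ 0 := by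
  rcases P with _ | ⟨x, y, h⟩
  · exact absurd rfl hP
  · rw [Point.map_some]; exact Point.some_ne_zero _

theorem fixes_torsion (W' : WeierstrassCurve ℚ) (A : ValuationSubring K) (σ : K ≃ₐ[ℚ] K)
    (hσ : σ ∈ A.inertiaSubgroupIn ℚ) (e a b : ℚ) (hb2 : 4 * (b - 3 * e) = W'.b₂)
    (hb4 : 2 * (3 * e ^ 2 - 2 * b * e + a) = W'.b₄)
    (hb6 : 4 * (-e ^ 3 + b * e ^ 2 - a * e) = W'.b₆)
    (he : A.valuation (algebraMap ℚ K e) ≤ 1)
    (h2 : A.valuation (2 : K) = 1) {p : ℕ} (hp : p.Prime) (hp3 : 3 ≤ p)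
    (hpv : A.valuation (p : K) = 1)
    (hcase : (A.valuation (algebraMap ℚ K a) = 1 ∧ A.valuation (algebraMap ℚ K b) ≤ 1 ∧
        A.valuation (algebraMap ℚ K (b ^ 2 - 4 * a)) = 1) ∨
      (A.valuation (algebraMap ℚ K a) < 1 ∧ a ≠ 0 ∧ A.valuation (algebraMap ℚ K b) = 1 ∧
        ∃ π : ℚ, A.valuation (algebraMap ℚ K a) = A.valuation (algebraMap ℚ K π) ^ p))
    (P : (W'⁄K).Point) (hP : p • P = 0) : Point.map (W' := W') σ.toAlgHom P = P := by
  by_cases hP0 : P = 0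
  · subst hP0; rfl
  set v := A.valuation with hv
  set φ := algebraMap ℚ K with hφ
  have hp2 : p ≠ 2 := by omega
  have hpo : Odd p := hp.odd_of_ne_two hp2
  have : Fact p.Prime := ⟨hp⟩
  have h4 : v (4 : K) = 1 := v_four v h2
  have ha1 : v (φ a) ≤ 1 := by
    rcases hcase with h | h
    · exact h.1.le
    · exact h.1.le
  have hb1 : v (φ b) ≤ 1 := by
    rcases hcase with h | h
    · exact h.2.1
    · exact h.2.2.1.le
  -- b-invariants
  have eb₂ : (W'⁄K).b₂ = φ W'.b₂ := WeierstrassCurve.map_b₂ ..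
  have eb₄ : (W'⁄K).b₄ = φ W'.b₄ := WeierstrassCurve.map_b₄ ..
  have eb₆ : (W'⁄K).b₆ = φ W'.b₆ := WeierstrassCurve.map_b₆ ..
  have eb₈ : (W'⁄K).b₈ = φ W'.b₈ := WeierstrassCurve.map_b₈ ..
  have hb8 : W'.b₈ = -a ^ 2 - 3 * e * W'.b₆ - 3 * e ^ 2 * W'.b₄ - e ^ 3 * W'.b₂ - 3 * e ^ 4 := by
    have hrel := W'.b_relation
    rw [← hb2, ← hb4, ← hb6] at hrel ⊢
    linear_combination (1 / 4 : ℚ) * hrel
  have hc : Centre (W'⁄K) (φ e) (φ a) (φ (4 * b)) := by
    refine ⟨?_, ?_, ?_, ?_⟩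
    · rw [eb₂, ← hb2]; simp only [map_mul, map_sub, map_ofNat]; ring
    · rw [eb₂, eb₄, ← hb2, ← hb4]
      simp only [map_mul, map_sub, map_add, map_pow, map_ofNat]; ring
    · rw [eb₂, eb₄, eb₆, ← hb2, ← hb4, ← hb6]
      simp only [map_mul, map_sub, map_add, map_pow, map_neg, map_ofNat]; ring
    · rw [eb₂, eb₄, eb₆, eb₈, hb8]
      simp only [map_mul, map_sub, map_add, map_pow, map_neg, map_ofNat]; ring
  -- integrality
  let E : A := ⟨φ e, (A.valuation_le_one_iff _).mp he⟩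
  let Aa : A := ⟨φ a, (A.valuation_le_one_iff _).mp ha1⟩
  let B : A := ⟨φ b, (A.valuation_le_one_iff _).mp hb1⟩
  have hb₂ : v (W'⁄K).b₂ ≤ 1 := by
    have : (W'⁄K).b₂ = ((4 * (B - 3 * E) : A) : K) := by
      rw [eb₂, ← hb2]; push_cast; simp only [map_mul, map_sub, map_add, map_pow, map_neg, map_ofNat]; rfl
    rw [this]; exact A.valuation_le_one _
  have hb₄ : v (W'⁄K).b₄ ≤ 1 := by
    have : (W'⁄K).b₄ = ((2 * (3 * E ^ 2 - 2 * B * E + Aa) : A) : K) := by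
      rw [eb₄, ← hb4]; push_cast; simp only [map_mul, map_sub, map_add, map_pow, map_neg, map_ofNat]; rfl
    rw [this]; exact A.valuation_le_one _
  have hb₆ : v (W'⁄K).b₆ ≤ 1 := by
    have : (W'⁄K).b₆ = ((4 * (-E ^ 3 + B * E ^ 2 - Aa * E) : A) : K) := by
      rw [eb₆, ← hb6]; push_cast; simp only [map_mul, map_sub, map_add, map_pow, map_neg, map_ofNat]; rfl
    rw [this]; exact A.valuation_le_one _
  have hb₈ : v (W'⁄K).b₈ ≤ 1 := by
    have : (W'⁄K).b₈ = ((-Aa ^ 2 - 3 * E * (4 * (-E ^ 3 + B * E ^ 2 - Aa * E))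
        - 3 * E ^ 2 * (2 * (3 * E ^ 2 - 2 * B * E + Aa)) - E ^ 3 * (4 * (B - 3 * E))
        - 3 * E ^ 4 : A) : K) := by
      rw [eb₈, hb8, ← hb2, ← hb4, ← hb6]; push_cast; simp only [map_mul, map_sub, map_add, map_pow, map_neg, map_ofNat]; rfl
    rw [this]; exact A.valuation_le_one _
  have hβ' : v (φ (4 * b)) = v (φ b) := by
    rw [map_mul, map_mul, map_ofNat, h4, one_mul]
  set P₂ := Point.map (W' := W') σ.toAlgHom P with hP₂
  have h₂ : p • P₂ = 0 := by rw [hP₂, ← map_nsmul, hP, map_zero]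
  have h₂0 : P₂ ≠ 0 := map_ne_zero' W' σ P hP0
  have hxP : v (xc P) ≤ 1 := T1 v hb₂ hb₄ hb₆ hb₈ p hpv P hP
  have hyP : v (yc P) ≤ 1 := v_yc_le_one v hb₂ hb₄ hb₆ hxP
  have hx1 : v (xc P₂ - xc P) < 1 := by
    rw [hP₂, xc_map]; exact (inertia_spec A σ hσ).2 _ hxP
  have hy1 : v (yc P₂ - yc P) < 1 := by
    rw [hP₂, yc_map]; exact (inertia_spec A σ hσ).2 _ hyP
  rcases hcase with ⟨hκ, -, hd⟩ | ⟨hκ, ha0, hβ, π, hπ⟩
  · refine core_good v hb₂ hb₄ hb₆ hb₈ hc he p hpo hpv hκ (hβ'.le.trans hb1) ?_ h2 P P₂ hP h₂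
      hP0 h₂0 hx1 hy1
    have : φ (4 * b) ^ 2 - 64 * φ a = 4 * 4 * φ (b ^ 2 - 4 * a) := by
      simp only [map_mul, map_sub, map_pow, map_ofNat]; ring
    rw [this, map_mul, map_mul, h4, one_mul, one_mul, hd]
  · have hκ0 : v (φ a) ≠ 0 := by
      rw [Valuation.ne_zero_iff]
      exact (map_ne_zero φ).mpr ha0
    have hν : v (φ π) < 1 := by
      by_contra h
      rw [not_lt] at h
      rw [hπ] at hκ
      exact absurd (one_le_pow₀ h) (not_le.mpr hκ)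
    have hν0 : v (φ π) ≠ 0 := by
      intro h
      rw [hπ, h, zero_pow hp.ne_zero] at hκ0
      exact hκ0 rfl
    have hT2 := T2 v hb₂ hb₄ hb₆ hb₈ hc he p hp2 hpv (v (φ π)) hν hν0 hπ (hβ'.trans hβ) h2 P hP hP0
    refine core_mult v hb₂ hb₄ hb₆ hb₈ hc he p hpo hpv hκ (hβ'.trans hβ) h2 P P₂ hP h₂ hP0 h₂0
      ?_ ?_ ?_
    · rcases hT2 with h | ⟨h, h', -⟩
      · exact Or.inl h
      · exact Or.inr ⟨h, h'⟩
    · rcases hT2 with h | ⟨h, h', j, hj⟩
      · rw [h]; exact hx1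
      · have hc0 : φ (π ^ j) ≠ 0 := by
          rw [← Valuation.ne_zero_iff v, map_pow, map_pow, ← hj]
          exact (lt_of_le_of_lt zero_le h).ne'
        have := val_sigma_sub_lt A σ hσ (x := xc P - φ e) (c := φ (π ^ j)) (σ.commutes _) hc0
          (by rw [map_pow, map_pow]; exact hj)
        have e1 : σ (xc P - φ e) - (xc P - φ e) = xc P₂ - xc P := by
          rw [hP₂, xc_map, map_sub]
          have : σ (φ e) = φ e := σ.commutes e
          rw [this]; ring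
        rwa [e1] at this
    · rcases hT2 with h | ⟨h, h', j, hj⟩
      · rw [h]; exact hy1
      · have hc0 : φ (π ^ j) ≠ 0 := by
          rw [← Valuation.ne_zero_iff v, map_pow, map_pow, ← hj]
          exact (lt_of_le_of_lt zero_le h).ne'
        have hY := v_yc_eq v hc (hβ'.trans hβ) h2 hP0 h h'
        have := val_sigma_sub_lt A σ hσ (x := yc P) (c := φ (π ^ j)) (σ.commutes _) hc0
          (by rw [map_pow, map_pow]; exact hY.trans hj)
        rw [← yc_map, ← hP₂] at this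
        exact this.trans_eq hY

end Fermat.Agent.S05
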