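/-
S05: final assembly for the Frey curve, from `fixes_torsion` (Fixes.lean) and `val_int` (Inertia.lean).
-/
import Fermat.Agent.S05.Fixes
import Fermat.Statements.S05

set_option autoImplicit false
open WeierstrassCurve WeierstrassCurve.Affine WeierstrassCurve.Affine.Point

namespace Fermat.Agent.S05

section val

variable {K : Type*} [Field K] [Algebra ℚ K] (A : ValuationSubring K) {q : ℕ} (hq : q.Prime)
  (hA : A.LiesOverPrime q)

include hq hA

theorem val_algebraMap_int (n : ℤ) :
    A.valuation (algebraMap ℚ K (n : ℚ)) ≤ 1 ∧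
      (A.valuation (algebraMap ℚ K (n : ℚ)) < 1 ↔ (q : ℤ) ∣ n) := by
  rw [map_intCast]
  exact val_int A hq hA n

theorem val_algebraMap_int_eq_one {n : ℤ} (hn : ¬ (q : ℤ) ∣ n) :
    A.valuation (algebraMap ℚ K (n : ℚ)) = 1 := by
  obtain ⟨h1, h2⟩ := val_algebraMap_int A hq hA n
  exact le_antisymm h1 (not_lt.mp (fun h => hn (h2.mp h)))

theorem val_algebraMap_div {n : ℤ} {d : ℤ} (hd : ¬ (q : ℤ) ∣ d) :
    A.valuation (algebraMap ℚ K ((n : ℚ) / (d : ℚ))) = A.valuation (algebraMap ℚ K (n : ℚ)) := by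
  rw [map_div₀, map_div₀, val_algebraMap_int_eq_one A hq hA hd, div_one]

end val

end Fermat.Agent.S05

namespace Fermat.Agent.S05

open FreyPackage

attribute [local instance 5000] AlgebraicClosure.instAlgebra

theorem not_dvd_two_of_gcd {x y : ℤ} (h : gcd x y = 1) {q : ℕ} (hq : q.Prime)
    (hx : (q : ℤ) ∣ x) (hy : (q : ℤ) ∣ y) : False := by
  have h1 : (q : ℤ) ∣ gcd x y := dvd_gcd hx hy
  rw [h] at h1
  have h2 := Int.natAbs_dvd_natAbs.mpr h1
  simp at h2
  exact hq.one_lt.ne' h2

theorem frey_main (P : FreyPackage) {q : ℕ} (hq : q.Prime) (hq2 : q ≠ 2) (hqp : q ≠ P.p) :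
    P.GaloisRepUnramifiedAt q := by
  intro A hA σ hσ x
  apply Subtype.ext
  have hx := x.2
  rw [Submodule.mem_torsionBy_iff] at hx
  have hx' : P.p • x.1 = 0 := by
    rw [← hx]; exact (natCast_zsmul _ _).symm
  change Point.map σ.toAlgHom x.1 = x.1
  have hqZ : Prime (q : ℤ) := Nat.prime_iff_prime_int.mp hq
  -- basic non-divisibilities
  have hq_2 : ¬ (q : ℤ) ∣ 2 := by
    intro h
    have : q ∣ 2 := by exact_mod_cast h
    exact hq2 ((Nat.prime_dvd_prime_iff_eq hq Nat.prime_two).mp this)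
  have hq_4 : ¬ (q : ℤ) ∣ 4 := by
    intro h
    have : (q : ℤ) ∣ 2 * 2 := by norm_num; exact h
    rcases hqZ.dvd_or_dvd this with h | h <;> exact hq_2 h
  have hq_16 : ¬ (q : ℤ) ∣ 16 := by
    intro h
    have : (q : ℤ) ∣ 4 * 4 := by norm_num; exact h
    rcases hqZ.dvd_or_dvd this with h | h <;> exact hq_4 h
  have hq_p : ¬ (q : ℤ) ∣ (P.p : ℤ) := by
    intro h
    have : q ∣ P.p := by exact_mod_cast h
    exact hqp ((Nat.prime_dvd_prime_iff_eq hq P.pp).mp this)
  have h2 : A.valuation (2 : AlgebraicClosure ℚ) = 1 := by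
    have := val_algebraMap_int_eq_one A hq hA hq_2
    simpa using this
  have hpv : A.valuation (P.p : AlgebraicClosure ℚ) = 1 := by
    have := val_algebraMap_int_eq_one A hq hA hq_p
    simpa using this
  have hp3 : 3 ≤ P.p := le_trans (by norm_num) P.hp5
  have hFLT : ((P.a : ℚ) ^ P.p + (P.b : ℚ) ^ P.p = (P.c : ℚ) ^ P.p) := by exact_mod_cast P.hFLT
  have hpow : ∀ z : ℤ, (q : ℤ) ∣ z ^ P.p ↔ (q : ℤ) ∣ z := fun z =>
    ⟨fun h => hqZ.dvd_of_dvd_pow h, fun h => dvd_pow h P.hp0⟩
  by_cases hab : (q : ℤ) ∣ P.a * P.b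
  · -- multiplicative reduction, node at `x = 0`
    refine fixes_torsion P.freyCurve A σ hσ 0 (((-(P.a * P.b) ^ P.p : ℤ) : ℚ) / ((16 : ℤ) : ℚ))
      (((P.b ^ P.p - P.a ^ P.p : ℤ) : ℚ) / ((4 : ℤ) : ℚ)) ?_ ?_ ?_ (by simp) h2 P.pp hp3 hpv (Or.inr ?_) x.1 hx'
    · simp only [FreyPackage.freyCurve, WeierstrassCurve.b₂]; push_cast; ring
    · simp only [FreyPackage.freyCurve, WeierstrassCurve.b₄]; push_cast; ring
    · simp only [FreyPackage.freyCurve, WeierstrassCurve.b₆]; push_cast; ring
    · refine ⟨?_, ?_, ?_, ((P.a * P.b : ℤ) : ℚ), ?_⟩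
      · rw [val_algebraMap_div A hq hA hq_16]
        exact (val_algebraMap_int A hq hA _).2.mpr ((dvd_neg).mpr ((hpow _).mpr hab))
      · have : (P.a * P.b) ^ P.p ≠ 0 := pow_ne_zero _ (mul_ne_zero P.ha0 P.hb0)
        simp only [ne_eq, div_eq_zero_iff, not_or]
        constructor
        · exact_mod_cast neg_ne_zero.mpr this
        · norm_num
      · rw [val_algebraMap_div A hq hA hq_4]
        apply val_algebraMap_int_eq_one A hq hA
        intro h
        rcases hqZ.dvd_or_dvd hab with h' | h'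
        · have h1 : (q : ℤ) ∣ P.b ^ P.p := by
            have := dvd_add h ((hpow _).mpr h')
            simpa using this
          exact not_dvd_two_of_gcd P.hgcdab hq h' ((hpow _).mp h1)
        · have h1 : (q : ℤ) ∣ P.a ^ P.p := by
            have := dvd_sub ((hpow _).mpr h') h
            simpa using this
          exact not_dvd_two_of_gcd P.hgcdab hq ((hpow _).mp h1) h'
      · rw [val_algebraMap_div A hq hA hq_16, ← map_pow, ← map_pow, Int.cast_neg, map_neg,
          Valuation.map_neg]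
        push_cast
        rfl
  · have ha' : ¬ (q : ℤ) ∣ P.a := fun h => hab (dvd_mul_of_dvd_left h _)
    have hb' : ¬ (q : ℤ) ∣ P.b := fun h => hab (dvd_mul_of_dvd_right h _)
    by_cases hc : (q : ℤ) ∣ P.c
    · -- multiplicative reduction, node at `x = a ^ p / 4`
      refine fixes_torsion P.freyCurve A σ hσ (((P.a ^ P.p : ℤ) : ℚ) / ((4 : ℤ) : ℚ))
        ((((P.a * P.c) ^ P.p : ℤ) : ℚ) / ((16 : ℤ) : ℚ))
        (((P.a ^ P.p + P.c ^ P.p : ℤ) : ℚ) / ((4 : ℤ) : ℚ)) ?_ ?_ ?_
        (by rw [val_algebraMap_div A hq hA hq_4]; exact (val_algebraMap_int A hq hA _).1)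
        h2 P.pp hp3 hpv (Or.inr ?_) x.1 hx'
      · simp only [FreyPackage.freyCurve, WeierstrassCurve.b₂]; push_cast
        linear_combination (-1 : ℚ) * hFLT
      · simp only [FreyPackage.freyCurve, WeierstrassCurve.b₄]; push_cast
        rw [mul_pow]
        linear_combination ((P.a : ℚ) ^ P.p / 8) * hFLT
      · simp only [FreyPackage.freyCurve, WeierstrassCurve.b₆]; push_cast
        rw [mul_pow]
        ring
      · refine ⟨?_, ?_, ?_, ((P.a * P.c : ℤ) : ℚ), ?_⟩
        · rw [val_algebraMap_div A hq hA hq_16]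
          exact (val_algebraMap_int A hq hA _).2.mpr ((hpow _).mpr (dvd_mul_of_dvd_right hc _))
        · have : (P.a * P.c) ^ P.p ≠ 0 := pow_ne_zero _ (mul_ne_zero P.ha0 P.hc0)
          simp only [ne_eq, div_eq_zero_iff, not_or]
          constructor
          · exact_mod_cast this
          · norm_num
        · rw [val_algebraMap_div A hq hA hq_4]
          apply val_algebraMap_int_eq_one A hq hA
          intro h
          have h1 : (q : ℤ) ∣ P.a ^ P.p := by
            have := dvd_sub h ((hpow _).mpr hc)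
            simpa using this
          exact ha' ((hpow _).mp h1)
        · rw [val_algebraMap_div A hq hA hq_16, ← map_pow, ← map_pow]
          push_cast
          rfl
    · -- good reduction
      refine fixes_torsion P.freyCurve A σ hσ 0 (((-(P.a * P.b) ^ P.p : ℤ) : ℚ) / ((16 : ℤ) : ℚ))
        (((P.b ^ P.p - P.a ^ P.p : ℤ) : ℚ) / ((4 : ℤ) : ℚ)) ?_ ?_ ?_ (by simp) h2 P.pp hp3 hpv
        (Or.inl ?_) x.1 hx'
      · simp only [FreyPackage.freyCurve, WeierstrassCurve.b₂]; push_cast; ring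
      · simp only [FreyPackage.freyCurve, WeierstrassCurve.b₄]; push_cast; ring
      · simp only [FreyPackage.freyCurve, WeierstrassCurve.b₆]; push_cast; ring
      · refine ⟨?_, ?_, ?_⟩
        · rw [val_algebraMap_div A hq hA hq_16]
          apply val_algebraMap_int_eq_one A hq hA
          intro h
          exact hab ((hpow _).mp ((dvd_neg).mp h))
        · rw [val_algebraMap_div A hq hA hq_4]
          exact (val_algebraMap_int A hq hA _).1
        · have : (((P.b ^ P.p - P.a ^ P.p : ℤ) : ℚ) / ((4 : ℤ) : ℚ)) ^ 2 -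
              4 * (((-(P.a * P.b) ^ P.p : ℤ) : ℚ) / ((16 : ℤ) : ℚ)) =
              (((P.c ^ P.p) ^ 2 : ℤ) : ℚ) / ((16 : ℤ) : ℚ) := by
            push_cast
            rw [← hFLT, mul_pow]
            ring
          rw [this, val_algebraMap_div A hq hA hq_16]
          apply val_algebraMap_int_eq_one A hq hA
          intro h
          exact hc ((hpow _).mp (hqZ.dvd_of_dvd_pow h))

end Fermat.Agent.S05
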