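/-
S05 (Frey curve mod-p representation is unramified outside 2p): shared interface.

We abstract an elliptic curve in the form `Y ^ 2 = X * (X ^ 2 + b * X + a)` as a commutative group `G`
together with coordinate functions `X Y : G → K` (junk value at `0`), satisfying
the x-coordinate addition and duplication formulas.  All valuation-theoretic arguments are carried
out in this abstract setting.
-/
import Mathlib

set_option autoImplicit false

namespace Fermat.Agent.S05

/-- An abstract curve `Y ^ 2 = X * (X ^ 2 + b * X + a)`: a commutative group with coordinates. -/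
structure Coord (K : Type*) [Field K] (G : Type*) [AddCommGroup G] where
  /-- constant coefficient of the quadratic factor -/
  a : K
  /-- linear coefficient of the quadratic factor -/
  b : K
  /-- the `X`-coordinate (junk at `0`) -/
  X : G → K
  /-- the `Y`-coordinate (junk at `0`) -/
  Y : G → K
  eqn : ∀ P : G, P ≠ 0 → Y P ^ 2 = X P * (X P ^ 2 + b * X P + a)
  X_neg : ∀ P : G, P ≠ 0 → X (-P) = X P
  Y_neg : ∀ P : G, P ≠ 0 → Y (-P) = -Y P
  ext : ∀ P Q : G, P ≠ 0 → Q ≠ 0 → X P = X Q → Y P = Y Q → P = Q
  X_add : ∀ P Q : G, P ≠ 0 → Q ≠ 0 → X P ≠ X Q →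
    X (P + Q) * (X P * X Q * (X Q - X P) ^ 2) = (Y P * X Q - Y Q * X P) ^ 2
  X_two : ∀ P : G, P ≠ 0 → Y P ≠ 0 → X (P + P) * (4 * Y P ^ 2) = (X P ^ 2 - a) ^ 2

variable {K : Type*} [Field K] {Γ₀ : Type*} [LinearOrderedCommGroupWithZero Γ₀]
  {G : Type*} [AddCommGroup G]

/-- The "kernel of reduction": `0` together with the points with non-integral `X`. -/
def E1 (v : Valuation K Γ₀) (C : Coord K G) : Set G := {P | P = 0 ∨ 1 < v (C.X P)}

/-- In the multiplicative case (`v a < 1 = v b`): the points with nonsingular reduction. -/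
def E0 (v : Valuation K Γ₀) (C : Coord K G) : Set G := {P | P = 0 ∨ 1 ≤ v (C.X P)}

/-- A field endomorphism `σ` together with a compatible group endomorphism `s` of the points, which
preserves the valuation ring and acts trivially on the residue field. -/
structure Inertial (v : Valuation K Γ₀) (C : Coord K G) (σ : K →+* K) (s : G →+ G) : Prop where
  le_one_iff : ∀ x : K, v (σ x) ≤ 1 ↔ v x ≤ 1
  sub_lt_one : ∀ x : K, v x ≤ 1 → v (σ x - x) < 1
  ne_zero : ∀ P : G, P ≠ 0 → s P ≠ 0
  X_map : ∀ P : G, P ≠ 0 → C.X (s P) = σ (C.X P)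
  Y_map : ∀ P : G, P ≠ 0 → C.Y (s P) = σ (C.Y P)
  fix_a : σ C.a = C.a

end Fermat.Agent.S05
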