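/-
S05: formal consequences of the `Coord` axioms (no valuations).
-/
import Fermat.Agent.S05.Defs

set_option autoImplicit false

namespace Fermat.Agent.S05

variable {K : Type*} [Field K] {G : Type*} [AddCommGroup G] (C : Coord K G)

namespace Coord

theorem neg_ne_zero' {P : G} (hP : P ≠ 0) : -P ≠ 0 := neg_ne_zero.mpr hP

theorem add_ne_zero {P Q : G} (hP : P ≠ 0) (_hQ : Q ≠ 0) (h : C.X P ≠ C.X Q) : P + Q ≠ 0 := by
  intro h0
  have : Q = -P := (neg_eq_of_add_eq_zero_right h0).symm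
  exact h (by rw [this, C.X_neg P hP])

theorem sub_ne_zero' {P Q : G} (h : C.X P ≠ C.X Q) : P - Q ≠ 0 := by
  intro h0
  exact h (by rw [sub_eq_zero.mp h0])

/-- (F2) -/
theorem F2 {P Q : G} (hP : P ≠ 0) (hQ : Q ≠ 0) :
    (C.Y P * C.X Q - C.Y Q * C.X P) * (C.Y P * C.X Q + C.Y Q * C.X P) =
      C.X P * C.X Q * (C.X Q - C.X P) * (C.a - C.X P * C.X Q) := by
  have h1 := C.eqn P hP
  have h2 := C.eqn Q hQ
  linear_combination (C.X Q) ^ 2 * h1 - (C.X P) ^ 2 * h2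

/-- (F1) for the difference. -/
theorem X_sub {P Q : G} (hP : P ≠ 0) (hQ : Q ≠ 0) (h : C.X P ≠ C.X Q) :
    C.X (P - Q) * (C.X P * C.X Q * (C.X Q - C.X P) ^ 2) =
      (C.Y P * C.X Q + C.Y Q * C.X P) ^ 2 := by
  have := C.X_add P (-Q) hP (neg_ne_zero.mpr hQ) (by rwa [C.X_neg Q hQ])
  rw [C.X_neg Q hQ, C.Y_neg Q hQ] at this
  rw [sub_eq_add_neg, this]
  ring

/-- (F1') -/
theorem X_add' {P Q : G} (hP : P ≠ 0) (hQ : Q ≠ 0) (h : C.X P ≠ C.X Q)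
    (hXP : C.X P ≠ 0) (hXQ : C.X Q ≠ 0) :
    C.X (P + Q) * (C.Y P * C.X Q + C.Y Q * C.X P) ^ 2 =
      C.X P * C.X Q * (C.a - C.X P * C.X Q) ^ 2 := by
  have h1 := C.X_add P Q hP hQ h
  have h2 := C.F2 hP hQ
  have h3 : C.X P * C.X Q * (C.X Q - C.X P) ^ 2 ≠ 0 :=
    mul_ne_zero (mul_ne_zero hXP hXQ) (pow_ne_zero _ (sub_ne_zero.mpr (Ne.symm h)))
  apply mul_left_cancel₀ h3
  linear_combination (C.Y P * C.X Q + C.Y Q * C.X P) ^ 2 * h1 +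
    ((C.Y P * C.X Q - C.Y Q * C.X P) * (C.Y P * C.X Q + C.Y Q * C.X P) +
      C.X P * C.X Q * (C.X Q - C.X P) * (C.a - C.X P * C.X Q)) * h2

/-- (F1') for the difference. -/
theorem X_sub' {P Q : G} (hP : P ≠ 0) (hQ : Q ≠ 0) (h : C.X P ≠ C.X Q)
    (hXP : C.X P ≠ 0) (hXQ : C.X Q ≠ 0) :
    C.X (P - Q) * (C.Y P * C.X Q - C.Y Q * C.X P) ^ 2 =
      C.X P * C.X Q * (C.a - C.X P * C.X Q) ^ 2 := by
  have := C.X_add' hP (neg_ne_zero.mpr hQ) (by rwa [C.X_neg Q hQ]) hXP (by rwa [C.X_neg Q hQ])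
  rw [C.X_neg Q hQ, C.Y_neg Q hQ] at this
  rw [sub_eq_add_neg, ← this]
  ring

/-- (**) -/
theorem X_add_mul_X_sub {P Q : G} (hP : P ≠ 0) (hQ : Q ≠ 0) (h : C.X P ≠ C.X Q)
    (hXP : C.X P ≠ 0) (hXQ : C.X Q ≠ 0) :
    C.X (P + Q) * C.X (P - Q) * (C.X Q - C.X P) ^ 2 = (C.a - C.X P * C.X Q) ^ 2 := by
  have h1 := C.X_add' hP hQ h hXP hXQ
  have h2 := C.X_sub hP hQ h
  have h3 : C.X P * C.X Q ≠ 0 := mul_ne_zero hXP hXQ
  apply mul_left_cancel₀ h3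
  linear_combination C.X (P + Q) * h2 + h1

theorem eq_or_eq_neg {P Q : G} (hP : P ≠ 0) (hQ : Q ≠ 0) (h : C.X P = C.X Q) :
    P = Q ∨ P = -Q := by
  have h1 := C.eqn P hP
  have h2 := C.eqn Q hQ
  have h3 : C.Y P ^ 2 = C.Y Q ^ 2 := by rw [h1, h2, h]
  rcases sq_eq_sq_iff_eq_or_eq_neg.mp h3 with h4 | h4
  · exact Or.inl (C.ext P Q hP hQ h h4)
  · refine Or.inr (C.ext P (-Q) hP (neg_ne_zero.mpr hQ) ?_ ?_)
    · rw [C.X_neg Q hQ, h]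
    · rw [C.Y_neg Q hQ, h4]

theorem add_self_eq_zero_of_Y {P : G} (hP : P ≠ 0) (hY : C.Y P = 0) : P + P = 0 := by
  have : P = -P := C.ext P (-P) hP (neg_ne_zero.mpr hP) (C.X_neg P hP).symm
    (by rw [C.Y_neg P hP, hY, neg_zero])
  calc P + P = P + -P := by rw [← this]
    _ = 0 := add_neg_cancel P

theorem Y_eq_zero_of_add_self (h2 : (2 : K) ≠ 0) {P : G} (hP : P ≠ 0) (h : P + P = 0) :
    C.Y P = 0 := by
  have h1 : -P = P := neg_eq_of_add_eq_zero_right h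
  have h3 := C.Y_neg P hP
  rw [h1] at h3
  have h4 : 2 * C.Y P = 0 := by linear_combination h3
  exact (mul_eq_zero.mp h4).resolve_left h2

theorem X_ne_zero_of_Y_ne_zero {P : G} (hP : P ≠ 0) (hY : C.Y P ≠ 0) : C.X P ≠ 0 := by
  intro h
  have := C.eqn P hP
  rw [h, zero_mul] at this
  exact hY (pow_eq_zero_iff (two_ne_zero) |>.mp this)

end Coord

end Fermat.Agent.S05
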