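import Fermat.Agent.S05.T1
import Fermat.Agent.S05.T2abs

set_option autoImplicit false

namespace Fermat.Agent.S05

open WeierstrassCurve WeierstrassCurve.Affine

variable {K : Type*} [Field K] {W : Affine K} {e κ β : K}

/-- `e` is the `x`-coordinate of a 2-torsion point; in the coordinate `ξ = x - e` the curve is
`Y² = ξ (4 ξ² + β ξ + 4 κ)`. -/
structure Centre (W : Affine K) (e κ β : K) : Prop where
  c1 : β = W.b₂ + 12 * e
  c2 : 2 * κ = W.b₄ + e * W.b₂ + 6 * e ^ 2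
  c3 : 4 * e ^ 3 + W.b₂ * e ^ 2 + 2 * W.b₄ * e + W.b₆ = 0
  c4 : W.b₈ + 3 * e * W.b₆ + 3 * e ^ 2 * W.b₄ + e ^ 3 * W.b₂ + 3 * e ^ 4 = - κ ^ 2

lemma Centre.F0_id (h : Centre W e κ β) (s t : K) :
    F0 W s t - e * F1 W s t + e ^ 2 * (s - t) ^ 2 = ((s - e) * (t - e) - κ) ^ 2 := by
  simp only [F0, F1]
  linear_combination ((s - e) * (t - e)) * h.c2 - ((s - e) + (t - e)) * h.c3 - h.c4

lemma Centre.D2_id (h : Centre W e κ β) (s : K) :
    D2 W s = (s - e) * (4 * (s - e) ^ 2 + β * (s - e) + 4 * κ) := by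
  simp only [D2]
  rw [h.c1]
  linear_combination h.c3 - 2 * (s - e) * h.c2

variable [DecidableEq K]

lemma Centre.xi_add_mul_sub (h : Centre W e κ β) {P Q : W.Point} (hP : P ≠ 0) (hQ : Q ≠ 0)
    (hx : xc P ≠ xc Q) :
    (xc (P + Q) - e) * (xc (P - Q) - e) * ((xc P - e) - (xc Q - e)) ^ 2 =
      ((xc P - e) * (xc Q - e) - κ) ^ 2 := by
  rw [← h.F0_id, ← xc_add_mul_xc_sub hP hQ hx, ← xc_add_add_xc_sub hP hQ hx]
  ring

lemma Centre.xi_dbl (h : Centre W e κ β) {P : W.Point} (h2 : P + P ≠ 0) :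
    (xc (P + P) - e) * ((xc P - e) * (4 * (xc P - e) ^ 2 + β * (xc P - e) + 4 * κ)) =
      ((xc P - e) ^ 2 - κ) ^ 2 := by
  have h1 := h.F0_id (xc P) (xc P)
  have h3 : F1 W (xc P) (xc P) = D2 W (xc P) := by simp only [F1, D2]; ring
  rw [← h.D2_id, sq (xc P - e), ← h1, ← xc_add_self h2, h3]
  ring

/-- The homomorphism `ZMod p → E`, `g ↦ g • P` for a `p`-torsion point `P`. -/
noncomputable def torsHom (p : ℕ) (P : W.Point) (hP : p • P = 0) : ZMod p →+ W.Point :=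
  ZMod.lift p ⟨zmultiplesHom _ P, by simpa using hP⟩

lemma torsHom_one (p : ℕ) (P : W.Point) (hP : p • P = 0) : torsHom p P hP 1 = P := by
  have := ZMod.lift_coe p (⟨zmultiplesHom _ P, by simpa using hP⟩ :
    { f : ℤ →+ W.Point // f p = 0 }) 1
  simpa [torsHom] using this

lemma torsHom_ne_zero (p : ℕ) [Fact p.Prime] (P : W.Point) (hP : p • P = 0) (hP0 : P ≠ 0)
    (g : ZMod p) (hg : g ≠ 0) : torsHom p P hP g ≠ 0 := by
  intro h0
  apply hP0
  have h1 : (g⁻¹).val • g = 1 := by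
    rw [nsmul_eq_mul, ZMod.natCast_zmod_val, inv_mul_cancel₀ hg]
  rw [← torsHom_one p P hP, ← h1, map_nsmul, h0, smul_zero]

lemma torsHom_tors (p : ℕ) (P : W.Point) (hP : p • P = 0) (g : ZMod p) :
    p • torsHom p P hP g = 0 := by
  rw [← map_nsmul, nsmul_eq_mul, ZMod.natCast_self, zero_mul, map_zero]

section val

variable {Γ₀ : Type*} [LinearOrderedCommGroupWithZero Γ₀] (v : Valuation K Γ₀)

/-- **T2**: valuations of centred `x`-coordinates of `p`-torsion points,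
multiplicative reduction. -/
theorem T2 (hb₂ : v W.b₂ ≤ 1) (hb₄ : v W.b₄ ≤ 1) (hb₆ : v W.b₆ ≤ 1) (hb₈ : v W.b₈ ≤ 1)
    (hc : Centre W e κ β) (he : v e ≤ 1) (p : ℕ) [Fact p.Prime] (hp2 : p ≠ 2)
    (hp : v (p : K) = 1) (ν : Γ₀) (hν : ν < 1) (hν0 : ν ≠ 0) (hκ : v κ = ν ^ p)
    (hβ : v β = 1) (h2 : v (2 : K) = 1) (P : W.Point) (hP : p • P = 0) (hP0 : P ≠ 0) :
    v (xc P - e) = 1 ∨
      (v κ < v (xc P - e) ∧ v (xc P - e) < 1 ∧ ∃ j : ℕ, v (xc P - e) = ν ^ j) := by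
  set φ := torsHom p P hP with hφ
  have hne : ∀ g, g ≠ 0 → φ g ≠ 0 := torsHom_ne_zero p P hP hP0
  have hxne : ∀ g h, g ≠ 0 → h ≠ 0 → g + h ≠ 0 → g - h ≠ 0 → xc (φ g) ≠ xc (φ h) := by
    intro g h hg hh hgh hgh'
    apply xc_ne_of_ne (hne g hg) (hne h hh)
    · intro h1
      apply hne _ hgh'
      rw [map_sub, h1, sub_self]
    · intro h1
      apply hne _ hgh
      rw [map_add, h1, neg_add_cancel]
  have key := T2abs v p hp2 (fun g => xc (φ g) - e) κ β ν hν hν0 hκ hβ h2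
    (fun g _ => v.map_sub_le (T1 v hb₂ hb₄ hb₆ hb₈ p hp _ (torsHom_tors p P hP g)) he)
    (fun g => by simp only [map_neg, xc_neg])
    (fun g h hg hh hgh hgh' h1 => hxne g h hg hh hgh hgh' (sub_left_injective h1))
    (fun g h hg hh hgh hgh' => by
      simp only [map_add, map_sub]
      exact hc.xi_add_mul_sub (hne g hg) (hne h hh) (hxne g h hg hh hgh hgh'))
    (fun g hg => by
      simp only [map_add]
      apply hc.xi_dbl
      rw [← map_add]
      apply hne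
      intro h0
      apply hg
      have h3 : (2 : ZMod p) * g = 0 := by rw [two_mul]; exact h0
      rcases mul_eq_zero.mp h3 with h4 | h4
      · exfalso
        have h5 : ((2 : ℕ) : ZMod p) = 0 := by exact_mod_cast h4
        rw [ZMod.natCast_eq_zero_iff] at h5
        have := (Nat.prime_dvd_prime_iff_eq (Fact.out : p.Prime) Nat.prime_two).mp h5
        exact hp2 this
      · exact h4)
    1 one_ne_zero
  simpa only [hφ, torsHom_one] using key

omit [DecidableEq K] in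
lemma v_four (h2 : v (2 : K) = 1) : v (4 : K) = 1 := by
  have : (4 : K) = 2 * 2 := by norm_num
  rw [this, map_mul, h2, one_mul]

omit [DecidableEq K] in
/-- In the non-unit range `|κ| < |ξ| < 1` one has `|Y| = |ξ|`. -/
lemma v_yc_eq (hc : Centre W e κ β) (hβ : v β = 1) (h2 : v (2 : K) = 1) {P : W.Point}
    (hP0 : P ≠ 0) (h1 : v κ < v (xc P - e)) (h3 : v (xc P - e) < 1) :
    v (yc P) = v (xc P - e) := by
  set ξ := xc P - e with hξ
  have h4 := v_four v h2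
  have hpos : 0 < v ξ := lt_of_le_of_lt zero_le h1
  have hr : v (4 * ξ ^ 2 + β * ξ + 4 * κ) = v ξ := by
    have e1 : 4 * ξ ^ 2 + β * ξ + 4 * κ = β * ξ + (4 * ξ ^ 2 + 4 * κ) := by ring
    have e2 : v (β * ξ) = v ξ := by rw [map_mul, hβ, one_mul]
    rw [e1, ← e2]
    apply v.map_add_eq_of_lt_left
    rw [e2]
    apply v.map_add_lt
    · rw [map_mul, h4, one_mul, map_pow, sq]
      calc v ξ * v ξ < 1 * v ξ := mul_lt_mul_of_pos_right h3 hpos
        _ = v ξ := one_mul _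
    · rw [map_mul, h4, one_mul]; exact h1
  have hsq : v (yc P) ^ 2 = v ξ ^ 2 := by
    rw [← map_pow, yc_sq P hP0, hc.D2_id, map_mul, hr, sq]
  exact (pow_left_inj₀ zero_le zero_le (by norm_num)).mp hsq

lemma add_self_ne_zero_of_tors {p : ℕ} (hp : Odd p) {P : W.Point} (hP : p • P = 0)
    (hP0 : P ≠ 0) : P + P ≠ 0 := by
  intro h
  obtain ⟨k, rfl⟩ := hp
  apply hP0
  rw [add_smul, one_smul, mul_smul, two_smul] at hP
  have : k • P + k • P = k • (P + P) := by rw [smul_add]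
  rw [this, h, smul_zero, zero_add] at hP
  exact hP

/-- Two `p`-torsion points which are close to each other are equal (multiplicative reduction). -/
theorem core_mult (hb₂ : v W.b₂ ≤ 1) (hb₄ : v W.b₄ ≤ 1) (hb₆ : v W.b₆ ≤ 1) (hb₈ : v W.b₈ ≤ 1)
    (hc : Centre W e κ β) (he : v e ≤ 1) (p : ℕ) (hpo : Odd p)
    (hp : v (p : K) = 1) (hκ : v κ < 1)
    (hβ : v β = 1) (h2 : v (2 : K) = 1) (P₁ P₂ : W.Point) (h₁ : p • P₁ = 0) (h₂ : p • P₂ = 0)
    (h₁0 : P₁ ≠ 0) (h₂0 : P₂ ≠ 0)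
    (hr : v (xc P₁ - e) = 1 ∨ (v κ < v (xc P₁ - e) ∧ v (xc P₁ - e) < 1))
    (hx : v (xc P₂ - xc P₁) < v (xc P₁ - e)) (hy : v (yc P₂ - yc P₁) < v (xc P₁ - e)) :
    P₂ = P₁ := by
  by_contra hne
  have hT : ∀ Q : W.Point, p • Q = 0 → v (xc Q) ≤ 1 := fun Q hQ =>
    T1 v hb₂ hb₄ hb₆ hb₈ p hp Q hQ
  have hT' : ∀ Q : W.Point, p • Q = 0 → v (xc Q - e) ≤ 1 := fun Q hQ =>
    v.map_sub_le (hT Q hQ) he
  have h4 := v_four v h2
  have hξ₂ : v (xc P₂ - e) = v (xc P₁ - e) := by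
    have : xc P₂ - e = (xc P₁ - e) + (xc P₂ - xc P₁) := by ring
    rw [this]; exact v.map_add_eq_of_lt_left hx
  by_cases hxx : xc P₂ = xc P₁
  · have hneg : P₂ = -P₁ := (eq_or_eq_neg_of_xc_eq h₂0 h₁0 hxx).resolve_left hne
    have hy' : v (yc P₁) < v (xc P₁ - e) := by
      have : yc P₂ - yc P₁ = -(2 * yc P₁) := by rw [hneg, yc_neg]; ring
      rwa [this, Valuation.map_neg, map_mul, h2, one_mul] at hy
    rcases hr with hu | ⟨ha, hb⟩
    · have h22 := add_self_ne_zero_of_tors hpo h₁ h₁0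
      have hd := hc.xi_dbl h22
      rw [← hc.D2_id, ← yc_sq P₁ h₁0] at hd
      have hR : v ((xc P₁ - e) ^ 2 - κ) = 1 := by
        have : v ((xc P₁ - e) ^ 2) = 1 := by rw [map_pow, hu, one_pow]
        rw [← this]; apply v.map_sub_eq_of_lt_left; rw [this]; exact hκ
      have hL := congrArg v hd
      rw [map_mul, map_pow, map_pow, hR, one_pow] at hL
      rw [hu] at hy'
      have h5 : v (xc (P₁ + P₁) - e) ≤ 1 := hT' _ (by rw [smul_add, h₁, add_zero])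
      have h6 : v (yc P₁) ^ 2 < 1 := pow_lt_one₀ zero_le hy' (by norm_num)
      have : v (xc (P₁ + P₁) - e) * v (yc P₁) ^ 2 < 1 := by
        calc v (xc (P₁ + P₁) - e) * v (yc P₁) ^ 2 ≤ 1 * v (yc P₁) ^ 2 :=
              mul_le_mul_left h5 _
          _ = v (yc P₁) ^ 2 := one_mul _
          _ < 1 := h6
      rw [hL] at this
      exact lt_irrefl _ this
    · rw [v_yc_eq v hc hβ h2 h₁0 ha hb] at hy'
      exact lt_irrefl _ hy'
  · rcases hr with hu | ⟨ha, hb⟩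
    · have hd := hc.xi_add_mul_sub h₂0 h₁0 hxx
      have hR : v ((xc P₂ - e) * (xc P₁ - e) - κ) = 1 := by
        have : v ((xc P₂ - e) * (xc P₁ - e)) = 1 := by rw [map_mul, hξ₂, hu, one_mul]
        rw [← this]; apply v.map_sub_eq_of_lt_left; rw [this]; exact hκ
      have hL := congrArg v hd
      rw [map_mul, map_mul, map_pow, map_pow, hR, one_pow] at hL
      have e1 : xc P₂ - e - (xc P₁ - e) = xc P₂ - xc P₁ := by ring
      rw [e1] at hL
      rw [hu] at hx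
      have h5 : v (xc (P₂ + P₁) - e) ≤ 1 := hT' _ (by rw [smul_add, h₁, h₂, add_zero])
      have h6 : v (xc (P₂ - P₁) - e) ≤ 1 := hT' _ (by rw [smul_sub, h₁, h₂, sub_zero])
      have h7 : v (xc P₂ - xc P₁) ^ 2 < 1 := pow_lt_one₀ zero_le hx (by norm_num)
      have : v (xc (P₂ + P₁) - e) * v (xc (P₂ - P₁) - e) * v (xc P₂ - xc P₁) ^ 2 < 1 := by
        calc _ ≤ 1 * v (xc P₂ - xc P₁) ^ 2 := mul_le_mul_left (mul_le_one' h5 h6) _
          _ = v (xc P₂ - xc P₁) ^ 2 := one_mul _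
          _ < 1 := h7
      rw [hL] at this
      exact lt_irrefl _ this
    · have hn0 : -P₁ ≠ 0 := neg_ne_zero.mpr h₁0
      have hf := four_xc_add h₂0 hn0 (by rw [xc_neg]; exact hxx)
      rw [xc_neg, yc_neg, ← sub_eq_add_neg, sub_neg_eq_add] at hf
      have hY := v_yc_eq v hc hβ h2 h₁0 ha hb
      have hs : v (yc P₂ + yc P₁) = v (xc P₁ - e) := by
        have e1 : yc P₂ + yc P₁ = 2 * yc P₁ + (yc P₂ - yc P₁) := by ring
        have e2 : v (2 * yc P₁) = v (xc P₁ - e) := by rw [map_mul, h2, one_mul, hY]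
        rw [e1, ← e2]; apply v.map_add_eq_of_lt_left; rw [e2]; exact hy
      have e3 : (yc P₂ + yc P₁) ^ 2 =
          (xc P₂ - xc P₁) ^ 2 * (4 * xc (P₂ - P₁) + (W.b₂ + 4 * (xc P₂ + xc P₁))) := by
        linear_combination -hf
      have hL := congrArg v e3
      rw [map_pow, hs, map_mul, map_pow] at hL
      have h5 : v (4 * xc (P₂ - P₁) + (W.b₂ + 4 * (xc P₂ + xc P₁))) ≤ 1 := by
        refine v.map_add_le ?_ (v.map_add_le hb₂ ?_)
        · rw [map_mul, h4, one_mul]; exact hT _ (by rw [smul_sub, h₁, h₂, sub_zero])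
        · rw [map_mul, h4, one_mul]; exact v.map_add_le (hT _ h₂) (hT _ h₁)
      have h6 : v (xc P₂ - xc P₁) ^ 2 < v (xc P₁ - e) ^ 2 :=
        pow_lt_pow_left₀ hx zero_le (by norm_num)
      have : v (xc P₂ - xc P₁) ^ 2 * v (4 * xc (P₂ - P₁) + (W.b₂ + 4 * (xc P₂ + xc P₁)))
          < v (xc P₁ - e) ^ 2 := by
        calc _ ≤ v (xc P₂ - xc P₁) ^ 2 * 1 := mul_le_mul_right h5 _
          _ = v (xc P₂ - xc P₁) ^ 2 := mul_one _
          _ < _ := h6
      rw [← hL] at this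
      exact lt_irrefl _ this

omit [DecidableEq K] in
lemma good_aux {ξ : K} (hκ : v κ = 1) (hβ : v β ≤ 1) (h1 : v (ξ ^ 2 - κ) < 1)
    (h3 : v (ξ * (4 * ξ ^ 2 + β * ξ + 4 * κ)) < 1) : v (β ^ 2 - 64 * κ) < 1 := by
  have hξ2 : v (ξ ^ 2) = 1 := by
    have : ξ ^ 2 = κ + (ξ ^ 2 - κ) := by ring
    rw [this, ← hκ]; apply v.map_add_eq_of_lt_left; rw [hκ]; exact h1
  have hξ : v ξ = 1 := by
    rw [map_pow] at hξ2
    exact (pow_eq_one_iff_of_nonneg zero_le (by norm_num)).mp hξ2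
  rw [map_mul, hξ, one_mul] at h3
  have h4 : v (4 : K) ≤ 1 := by simpa using v_natCast_le_one v 4
  have h8 : v (8 : K) ≤ 1 := by simpa using v_natCast_le_one v 8
  have h5 : v (β * ξ + 8 * κ) < 1 := by
    have : β * ξ + 8 * κ = (4 * ξ ^ 2 + β * ξ + 4 * κ) - 4 * (ξ ^ 2 - κ) := by ring
    rw [this]
    apply v.map_sub_lt h3
    rw [map_mul]
    calc v (4 : K) * v (ξ ^ 2 - κ) ≤ 1 * v (ξ ^ 2 - κ) := mul_le_mul_left h4 _
      _ = v (ξ ^ 2 - κ) := one_mul _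
      _ < 1 := h1
  have h6 : v (β * ξ - 8 * κ) ≤ 1 := by
    apply v.map_sub_le
    · rw [map_mul, hξ, mul_one]; exact hβ
    · rw [map_mul, hκ, mul_one]; exact h8
  have e1 : κ * (β ^ 2 - 64 * κ) = (β * ξ + 8 * κ) * (β * ξ - 8 * κ) - β ^ 2 * (ξ ^ 2 - κ) := by
    ring
  have h7 : v (κ * (β ^ 2 - 64 * κ)) < 1 := by
    rw [e1]
    apply v.map_sub_lt
    · rw [map_mul]
      calc v (β * ξ + 8 * κ) * v (β * ξ - 8 * κ) ≤ v (β * ξ + 8 * κ) * 1 :=
            mul_le_mul_right h6 _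
        _ = v (β * ξ + 8 * κ) := mul_one _
        _ < 1 := h5
    · rw [map_mul, map_pow]
      calc v β ^ 2 * v (ξ ^ 2 - κ) ≤ 1 * v (ξ ^ 2 - κ) :=
            mul_le_mul_left (pow_le_one₀ zero_le hβ) _
        _ = v (ξ ^ 2 - κ) := one_mul _
        _ < 1 := h1
  rwa [map_mul, hκ, one_mul] at h7

/-- Two `p`-torsion points which are close to each other are equal (good reduction). -/
theorem core_good (hb₂ : v W.b₂ ≤ 1) (hb₄ : v W.b₄ ≤ 1) (hb₆ : v W.b₆ ≤ 1) (hb₈ : v W.b₈ ≤ 1)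
    (hc : Centre W e κ β) (he : v e ≤ 1) (p : ℕ) (hpo : Odd p)
    (hp : v (p : K) = 1) (hκ : v κ = 1) (hβ : v β ≤ 1) (hd : v (β ^ 2 - 64 * κ) = 1)
    (h2 : v (2 : K) = 1) (P₁ P₂ : W.Point) (h₁ : p • P₁ = 0) (h₂ : p • P₂ = 0)
    (h₁0 : P₁ ≠ 0) (h₂0 : P₂ ≠ 0)
    (hx : v (xc P₂ - xc P₁) < 1) (hy : v (yc P₂ - yc P₁) < 1) :
    P₂ = P₁ := by
  by_contra hne
  have hT : ∀ Q : W.Point, p • Q = 0 → v (xc Q) ≤ 1 := fun Q hQ =>
    T1 v hb₂ hb₄ hb₆ hb₈ p hp Q hQ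
  have hT' : ∀ Q : W.Point, p • Q = 0 → v (xc Q - e) ≤ 1 := fun Q hQ =>
    v.map_sub_le (hT Q hQ) he
  have sq_lt : ∀ z : K, v (z ^ 2) < 1 → v z < 1 := by
    intro z hz
    by_contra h
    rw [not_lt] at h
    rw [map_pow] at hz
    exact absurd (one_le_pow₀ h) (not_le.mpr hz)
  suffices h : v ((xc P₁ - e) ^ 2 - κ) < 1 ∧
      v ((xc P₁ - e) * (4 * (xc P₁ - e) ^ 2 + β * (xc P₁ - e) + 4 * κ)) < 1 by
    have := good_aux v hκ hβ h.1 h.2
    rw [hd] at this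
    exact lt_irrefl _ this
  by_cases hxx : xc P₂ = xc P₁
  · have hneg : P₂ = -P₁ := (eq_or_eq_neg_of_xc_eq h₂0 h₁0 hxx).resolve_left hne
    have hy' : v (yc P₁) < 1 := by
      have : yc P₂ - yc P₁ = -(2 * yc P₁) := by rw [hneg, yc_neg]; ring
      rwa [this, Valuation.map_neg, map_mul, h2, one_mul] at hy
    have h6 : v (yc P₁ ^ 2) < 1 := by
      rw [map_pow]; exact pow_lt_one₀ zero_le hy' (by norm_num)
    have h22 := add_self_ne_zero_of_tors hpo h₁ h₁0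
    have hdd := hc.xi_dbl h22
    rw [← hc.D2_id, ← yc_sq P₁ h₁0] at hdd ⊢
    refine ⟨sq_lt _ ?_, h6⟩
    rw [← hdd, map_mul]
    have h5 : v (xc (P₁ + P₁) - e) ≤ 1 := hT' _ (by rw [smul_add, h₁, add_zero])
    calc v (xc (P₁ + P₁) - e) * v (yc P₁ ^ 2) ≤ 1 * v (yc P₁ ^ 2) := mul_le_mul_left h5 _
      _ = v (yc P₁ ^ 2) := one_mul _
      _ < 1 := h6
  · have h7 : v ((xc P₂ - xc P₁) ^ 2) < 1 := by
      rw [map_pow]; exact pow_lt_one₀ zero_le hx (by norm_num)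
    constructor
    · have hdd := hc.xi_add_mul_sub h₂0 h₁0 hxx
      have e1 : xc P₂ - e - (xc P₁ - e) = xc P₂ - xc P₁ := by ring
      rw [e1] at hdd
      have h5 : v (xc (P₂ + P₁) - e) ≤ 1 := hT' _ (by rw [smul_add, h₁, h₂, add_zero])
      have h6 : v (xc (P₂ - P₁) - e) ≤ 1 := hT' _ (by rw [smul_sub, h₁, h₂, sub_zero])
      have h8 : v ((xc P₂ - e) * (xc P₁ - e) - κ) < 1 := by
        apply sq_lt
        rw [← hdd, map_mul, map_mul]
        calc _ ≤ 1 * v ((xc P₂ - xc P₁) ^ 2) := mul_le_mul_left (mul_le_one' h5 h6) _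
          _ = v ((xc P₂ - xc P₁) ^ 2) := one_mul _
          _ < 1 := h7
      have e2 : (xc P₁ - e) ^ 2 - κ =
          ((xc P₂ - e) * (xc P₁ - e) - κ) - (xc P₂ - xc P₁) * (xc P₁ - e) := by ring
      rw [e2]
      apply v.map_sub_lt h8
      rw [map_mul]
      calc v (xc P₂ - xc P₁) * v (xc P₁ - e) ≤ v (xc P₂ - xc P₁) * 1 :=
            mul_le_mul_right (hT' _ h₁) _
        _ = v (xc P₂ - xc P₁) := mul_one _
        _ < 1 := hx
    · rw [← hc.D2_id]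
      have hs := xc_add_add_xc_sub h₂0 h₁0 hxx
      have e3 : D2 W (xc P₁) = F1 W (xc P₂) (xc P₁) -
          (xc P₂ - xc P₁) * (2 * xc P₁ * (xc P₂ + 2 * xc P₁) + W.b₂ * xc P₁ + W.b₄) := by
        simp only [D2, F1]; ring
      rw [e3, ← hs]
      have hx1 := hT _ h₁
      have hx2 := hT _ h₂
      apply v.map_sub_lt
      · rw [map_mul]
        have h5 : v (xc (P₂ + P₁) + xc (P₂ - P₁)) ≤ 1 :=
          v.map_add_le (hT _ (by rw [smul_add, h₁, h₂, add_zero]))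
            (hT _ (by rw [smul_sub, h₁, h₂, sub_zero]))
        calc _ ≤ 1 * v ((xc P₂ - xc P₁) ^ 2) := mul_le_mul_left h5 _
          _ = v ((xc P₂ - xc P₁) ^ 2) := one_mul _
          _ < 1 := h7
      · rw [map_mul]
        have h5 : v (2 * xc P₁ * (xc P₂ + 2 * xc P₁) + W.b₂ * xc P₁ + W.b₄) ≤ 1 := by
          refine v.map_add_le (v.map_add_le ?_ ?_) hb₄
          · rw [map_mul, map_mul, h2, one_mul]
            refine mul_le_one' hx1 (v.map_add_le hx2 ?_)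
            rw [map_mul, h2, one_mul]; exact hx1
          · rw [map_mul]; exact mul_le_one' hb₂ hx1
        calc _ ≤ v (xc P₂ - xc P₁) * 1 := mul_le_mul_right h5 _
          _ = v (xc P₂ - xc P₁) := mul_one _
          _ < 1 := hx

end val

end Fermat.Agent.S05
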