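import Fermat.Agent.S05.Formulas

set_option autoImplicit false

namespace Fermat.Agent.S05

open WeierstrassCurve WeierstrassCurve.Affine

variable {K : Type*} [Field K]

/-- `1/x` of a point (value `0` at the origin). -/
def wc {W : Affine K} (P : W.Point) : K := (xc P)⁻¹

/-- `F0` in the coordinates `1/x`. -/
def U0 (W : Affine K) (s t : K) : K :=
  1 - W.b₄ * (s * t) - W.b₆ * (s + t) * (s * t) - W.b₈ * (s * t) ^ 2

/-- `F1` in the coordinates `1/x`. -/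
def G1 (W : Affine K) (s t : K) : K :=
  2 * (s + t) + W.b₂ * (s * t) + W.b₄ * (s + t) * (s * t) + W.b₆ * (s * t) ^ 2

variable {W : Affine K}

@[simp] lemma wc_zero : wc (0 : W.Point) = 0 := by simp [wc]

lemma wc_neg (P : W.Point) : wc (-P) = wc P := by simp [wc, xc_neg]

lemma F0_eq {s t : K} (hs : s ≠ 0) (ht : t ≠ 0) :
    F0 W s t = s ^ 2 * t ^ 2 * U0 W s⁻¹ t⁻¹ := by
  simp only [F0, U0]; field_simp; ring

lemma F1_eq {s t : K} (hs : s ≠ 0) (ht : t ≠ 0) :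
    F1 W s t = s ^ 2 * t ^ 2 * G1 W s⁻¹ t⁻¹ := by
  simp only [F1, G1]; field_simp; ring

lemma D2_eq {s : K} (hs : s ≠ 0) :
    D2 W s = s ^ 4 * G1 W s⁻¹ s⁻¹ := by
  simp only [D2, G1]; field_simp; ring

variable [DecidableEq K]

/-- The sum formula in the coordinate `1/x`, including all degenerate cases. -/
lemma wc_add_sub {R P : W.Point} (hR : R = 0 ∨ xc R ≠ 0) (hP : xc P ≠ 0)
    (hU : U0 W (wc R) (wc P) ≠ 0) :
    (R + P = 0 ∨ xc (R + P) ≠ 0) ∧ (R - P = 0 ∨ xc (R - P) ≠ 0) ∧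
      (wc (R + P) + wc (R - P)) * U0 W (wc R) (wc P) = G1 W (wc R) (wc P) := by
  have hP0 : P ≠ 0 := by rintro rfl; exact hP rfl
  rcases hR with rfl | hR
  · refine ⟨Or.inr (by simpa using hP), Or.inr (by simpa [xc_neg] using hP), ?_⟩
    simp only [zero_add, zero_sub, wc_neg, wc_zero, U0, G1]
    ring
  have hR0 : R ≠ 0 := by rintro rfl; exact hR rfl
  -- the doubling case, stated for a general point
  have dbl : ∀ Q : W.Point, xc Q ≠ 0 → U0 W (wc Q) (wc Q) ≠ 0 →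
      (Q + Q = 0 ∨ xc (Q + Q) ≠ 0) ∧ wc (Q + Q) * U0 W (wc Q) (wc Q) = G1 W (wc Q) (wc Q) := by
    intro Q hQ hUQ
    have hQ0 : Q ≠ 0 := by rintro rfl; exact hQ rfl
    by_cases h2 : Q + Q = 0
    · refine ⟨Or.inl h2, ?_⟩
      have h3 : D2 W (xc Q) = 0 := by
        rw [← yc_sq Q hQ0, yc_eq_zero_of_add_self h2]; ring
      rw [D2_eq hQ] at h3
      have h4 : G1 W (xc Q)⁻¹ (xc Q)⁻¹ = 0 := by
        rcases mul_eq_zero.mp h3 with h | h
        · exact absurd (pow_eq_zero_iff (by norm_num) |>.mp h) hQ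
        · exact h
      rw [h2, wc_zero, zero_mul]; exact h4.symm
    · have h3 := xc_add_self h2
      rw [F0_eq hQ hQ, D2_eq hQ] at h3
      have hne : xc (Q + Q) ≠ 0 := by
        intro h0
        rw [h0, zero_mul] at h3
        have : (xc Q) ^ 2 * (xc Q) ^ 2 * U0 W (xc Q)⁻¹ (xc Q)⁻¹ ≠ 0 :=
          mul_ne_zero (mul_ne_zero (pow_ne_zero _ hQ) (pow_ne_zero _ hQ)) hUQ
        exact this h3.symm
      refine ⟨Or.inr hne, ?_⟩
      simp only [wc] at hUQ ⊢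
      field_simp
      field_simp at h3
      linear_combination -h3
  by_cases h1 : R = P
  · subst h1
    obtain ⟨ha, hb⟩ := dbl R hR hU
    refine ⟨ha, Or.inl (sub_self _), ?_⟩
    rw [sub_self, wc_zero, add_zero]; exact hb
  by_cases h2 : R = -P
  · subst h2
    rw [wc_neg] at hU ⊢
    obtain ⟨ha, hb⟩ := dbl P hP hU
    have e : -P - P = -(P + P) := by abel
    refine ⟨Or.inl (neg_add_cancel _), ?_, ?_⟩
    · rw [e, xc_neg, neg_eq_zero]; exact ha
    · rw [neg_add_cancel, e, wc_neg, wc_zero, zero_add]; exact hb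
  have hx : xc R ≠ xc P := xc_ne_of_ne hR0 hP0 h1 h2
  have hs := xc_add_add_xc_sub hR0 hP0 hx
  have hm := xc_add_mul_xc_sub hR0 hP0 hx
  rw [F1_eq hR hP] at hs
  rw [F0_eq hR hP] at hm
  have hne : xc (R + P) * xc (R - P) ≠ 0 := by
    intro h0
    rw [h0, zero_mul] at hm
    have : (xc R) ^ 2 * (xc P) ^ 2 * U0 W (xc R)⁻¹ (xc P)⁻¹ ≠ 0 :=
      mul_ne_zero (mul_ne_zero (pow_ne_zero _ hR) (pow_ne_zero _ hP)) hU
    exact this hm.symm
  have hne1 := left_ne_zero_of_mul hne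
  have hne2 := right_ne_zero_of_mul hne
  refine ⟨Or.inr hne1, Or.inr hne2, ?_⟩
  have hd : xc R - xc P ≠ 0 := sub_ne_zero.mpr hx
  simp only [wc] at hU ⊢
  generalize U0 W (xc R)⁻¹ (xc P)⁻¹ = u at *
  generalize G1 W (xc R)⁻¹ (xc P)⁻¹ = g at *
  generalize xc (R + P) = a at *
  generalize xc (R - P) = b at *
  have h5 : (a + b) * u = a * b * g := by
    have h6 : (xc R - xc P) ^ 2 * ((xc R) ^ 2 * (xc P) ^ 2) ≠ 0 :=
      mul_ne_zero (pow_ne_zero _ hd) (mul_ne_zero (pow_ne_zero _ hR) (pow_ne_zero _ hP))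
    apply mul_left_cancel₀ h6
    linear_combination ((xc R) ^ 2 * (xc P) ^ 2 * u) * hs - ((xc R) ^ 2 * (xc P) ^ 2 * g) * hm
  field_simp
  linear_combination h5

section val

variable {Γ₀ : Type*} [LinearOrderedCommGroupWithZero Γ₀] (v : Valuation K Γ₀)

omit [DecidableEq K] in
lemma v_natCast_le_one (n : ℕ) : v (n : K) ≤ 1 := by
  induction n with
  | zero => simp
  | succ n ih => rw [Nat.cast_succ]; exact v.map_add_le ih (by simp)

omit [DecidableEq K] in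
lemma v_U0_sub_one {s t : K} (hb₄ : v W.b₄ ≤ 1) (hb₆ : v W.b₆ ≤ 1) (hb₈ : v W.b₈ ≤ 1)
    (hs : v s ≤ v t) (ht : v t < 1) : v (U0 W s t - 1) ≤ v t ^ 2 := by
  have hs1 : v s ≤ 1 := hs.trans ht.le
  have hst : v (s * t) ≤ v t ^ 2 := by
    rw [map_mul, sq]; exact mul_le_mul_left hs _
  have e : U0 W s t - 1 = (s * t) * (-(W.b₄ + W.b₆ * (s + t) + W.b₈ * (s * t))) := by
    simp only [U0]; ring
  rw [e, map_mul, Valuation.map_neg]
  have hc : v (W.b₄ + W.b₆ * (s + t) + W.b₈ * (s * t)) ≤ 1 := by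
    refine v.map_add_le (v.map_add_le hb₄ ?_) ?_
    · rw [map_mul]; exact mul_le_one' hb₆ (v.map_add_le hs1 ht.le)
    · rw [map_mul, map_mul]; exact mul_le_one' hb₈ (mul_le_one' hs1 ht.le)
  calc v (s * t) * v (W.b₄ + W.b₆ * (s + t) + W.b₈ * (s * t)) ≤ v t ^ 2 * 1 :=
        mul_le_mul' hst hc
    _ = v t ^ 2 := mul_one _

omit [DecidableEq K] in
lemma v_est {s t z : K} (hb₂ : v W.b₂ ≤ 1) (hb₄ : v W.b₄ ≤ 1) (hb₆ : v W.b₆ ≤ 1)
    (hb₈ : v W.b₈ ≤ 1) (hs : v s ≤ v t) (ht : v t < 1)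
    (hz : z * U0 W s t = G1 W s t) : v (z - 2 * s - 2 * t) ≤ v t ^ 2 := by
  have hs1 : v s ≤ 1 := hs.trans ht.le
  have h2 : v (2 : K) ≤ 1 := by simpa using v_natCast_le_one v 2
  have hst : v (s * t) ≤ v t ^ 2 := by
    rw [map_mul, sq]; exact mul_le_mul_left hs _
  have hU1 := v_U0_sub_one v hb₄ hb₆ hb₈ hs ht
  have hlt : v t ^ 2 < 1 := pow_lt_one₀ zero_le ht (by norm_num)
  have hU : v (U0 W s t) = 1 := by
    have : U0 W s t = 1 + (U0 W s t - 1) := by ring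
    rw [this]; exact v.map_one_add_of_lt (hU1.trans_lt hlt)
  have e : (z - 2 * s - 2 * t) * U0 W s t =
      (s * t) * (W.b₂ + W.b₄ * (s + t) + W.b₆ * (s * t)
        + 2 * (s + t) * (W.b₄ + W.b₆ * (s + t) + W.b₈ * (s * t))) := by
    have : (z - 2 * s - 2 * t) * U0 W s t = G1 W s t - 2 * (s + t) * U0 W s t := by
      rw [← hz]; ring
    rw [this]; simp only [U0, G1]; ring
  have h3 : v (z - 2 * s - 2 * t) = v ((z - 2 * s - 2 * t) * U0 W s t) := by
    rw [map_mul, hU, mul_one]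
  rw [h3, e, map_mul]
  have hst1 : v (s + t) ≤ 1 := v.map_add_le hs1 ht.le
  have hst2 : v (s * t) ≤ 1 := by rw [map_mul]; exact mul_le_one' hs1 ht.le
  have hc : v (W.b₂ + W.b₄ * (s + t) + W.b₆ * (s * t)
        + 2 * (s + t) * (W.b₄ + W.b₆ * (s + t) + W.b₈ * (s * t))) ≤ 1 := by
    refine v.map_add_le (v.map_add_le (v.map_add_le hb₂ ?_) ?_) ?_
    · rw [map_mul]; exact mul_le_one' hb₄ hst1
    · rw [map_mul]; exact mul_le_one' hb₆ hst2
    · rw [map_mul, map_mul]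
      refine mul_le_one' (mul_le_one' h2 hst1) (v.map_add_le (v.map_add_le hb₄ ?_) ?_)
      · rw [map_mul]; exact mul_le_one' hb₆ hst1
      · rw [map_mul]; exact mul_le_one' hb₈ hst2
  calc _ ≤ v t ^ 2 * 1 := mul_le_mul' hst hc
    _ = v t ^ 2 := mul_one _

/-- **T1**: a torsion point of order prime to the residue characteristic has integral
`x`-coordinate. -/
theorem T1 (hb₂ : v W.b₂ ≤ 1) (hb₄ : v W.b₄ ≤ 1) (hb₆ : v W.b₆ ≤ 1) (hb₈ : v W.b₈ ≤ 1)
    (n : ℕ) (hn : v (n : K) = 1) (P : W.Point) (hP : n • P = 0) : v (xc P) ≤ 1 := by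
  by_contra hlt
  rw [not_le] at hlt
  have hx0 : xc P ≠ 0 := by
    intro h; rw [h, map_zero] at hlt; exact not_lt.mpr zero_le hlt
  set t := wc P with ht
  have hvt : v t < 1 := by
    rw [ht, wc, map_inv₀]; exact inv_lt_one_of_one_lt₀ hlt
  have ht0 : v t ≠ 0 := by
    rw [ht, wc, map_inv₀]; exact inv_ne_zero ((v.ne_zero_iff).mpr hx0)
  have hsq : v t ^ 2 ≤ v t := by
    rw [sq]; calc v t * v t ≤ 1 * v t := mul_le_mul_left hvt.le _
      _ = v t := one_mul _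
  have key : ∀ k : ℕ,
      ((k • P = 0 ∨ xc (k • P) ≠ 0) ∧ v (wc (k • P) - (k : K) ^ 2 * t) ≤ v t ^ 2) ∧
      (((k + 1) • P = 0 ∨ xc ((k + 1) • P) ≠ 0) ∧
        v (wc ((k + 1) • P) - ((k + 1 : ℕ) : K) ^ 2 * t) ≤ v t ^ 2) := by
    intro k
    induction k with
    | zero =>
      refine ⟨⟨Or.inl (zero_smul _ _), by simp⟩, ⟨Or.inr (by simpa using hx0), by simp [ht]⟩⟩
    | succ k ih =>
      obtain ⟨⟨h0a, h0b⟩, ⟨h1a, h1b⟩⟩ := ih
      refine ⟨⟨h1a, h1b⟩, ?_⟩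
      set R := (k + 1) • P with hR
      have hRP : (k + 1 + 1) • P = R + P := by rw [hR, succ_nsmul]
      have hRP' : k • P = R - P := by rw [hR, succ_nsmul]; abel
      have hs : v (wc R) ≤ v t := by
        have : wc R = (wc R - ((k + 1 : ℕ) : K) ^ 2 * t) + ((k + 1 : ℕ) : K) ^ 2 * t := by ring
        rw [this]
        refine v.map_add_le (h1b.trans hsq) ?_
        rw [map_mul, map_pow]
        calc v ((k + 1 : ℕ) : K) ^ 2 * v t ≤ 1 * v t :=
              mul_le_mul_left (pow_le_one₀ zero_le (v_natCast_le_one v _)) _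
          _ = v t := one_mul _
      have hU1 := v_U0_sub_one (W := W) v hb₄ hb₆ hb₈ hs hvt
      have hlt1 : v t ^ 2 < 1 := pow_lt_one₀ zero_le hvt (by norm_num)
      have hU : U0 W (wc R) t ≠ 0 := by
        intro h0
        rw [h0, zero_sub, Valuation.map_neg, map_one] at hU1
        exact absurd hU1 (not_le.mpr hlt1)
      obtain ⟨ha, -, hc⟩ := wc_add_sub h1a hx0 hU
      have hest := v_est v hb₂ hb₄ hb₆ hb₈ hs hvt hc
      rw [hRP]
      refine ⟨ha, ?_⟩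
      have e : wc (R + P) - ((k + 1 + 1 : ℕ) : K) ^ 2 * t =
          (wc (R + P) + wc (R - P) - 2 * wc R - 2 * t) - (wc (R - P) - (k : K) ^ 2 * t)
            + 2 * (wc R - ((k + 1 : ℕ) : K) ^ 2 * t) := by
        push_cast; ring
      rw [e]
      refine v.map_add_le (v.map_sub_le hest (hRP' ▸ h0b)) ?_
      rw [map_mul]
      calc v (2 : K) * v (wc R - ((k + 1 : ℕ) : K) ^ 2 * t) ≤ 1 * v t ^ 2 :=
            mul_le_mul' (by simpa using v_natCast_le_one v 2) h1b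
        _ = v t ^ 2 := one_mul _
  have h := (key n).1.2
  rw [hP, wc_zero, zero_sub, Valuation.map_neg, map_mul, map_pow, hn, one_pow, one_mul, sq] at h
  have : v t * 1 ≤ v t * v t := by rwa [mul_one]
  have h1 : (1 : Γ₀) ≤ v t := le_of_mul_le_mul_left this (zero_lt_iff.mpr ht0)
  exact absurd h1 (not_le.mpr hvt)

end val

end Fermat.Agent.S05
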